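import Fermat.Agent.S18.H457.Transfer
import Fermat.Prelude.Def_EllipticCurve_FrobeniusTrace

/-!
# S18 / node D2 — exact statement of `Integ.node_d2` (helper457)

`levelM N ℓ = if ℓ = 3 then lcm N 2 else if ℓ = 2 then lcm N 3 else N` (unfolded here, so that this
file does not depend on the skeleton).  Degrees: `[F_{2N} : F_N] = 3` (`2 ∤ N`),
`[F_{3N} : F_N] = 4` (`3 ∤ N`) from helper988's degree API (S28).
-/

set_option autoImplicit false

noncomputable section

namespace Fermat.Agent.S18.H457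

open ModularCurve AlgebraicCurve

/-- NODE D2 (transfer `M → N`), with `levelM` unfolded. -/
theorem node_d2 (N : ℕ) [NeZero N] {ℓ : ℕ} [Fact ℓ.Prime] (_hℓN : ¬ ℓ ∣ N)
    (A : ValuationSubring Qb) (_hA : A.LiesOverPrime ℓ) (m : ℕ) (hm : ¬ ℓ ∣ m) :
    CoreStatement (if ℓ = 3 then Nat.lcm N 2 else if ℓ = 2 then Nat.lcm N 3 else N) A m →
      CoreStatement N A m := by
  have hN : N ≠ 0 := NeZero.ne N
  split_ifs with h3 h2
  · subst h3
    by_cases h2N : 2 ∣ N
    · rw [Nat.lcm_eq_left h2N]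
      exact id
    · have hcop : Nat.Coprime N 2 :=
        (Nat.coprime_comm.mp ((Nat.Prime.coprime_iff_not_dvd Nat.prime_two).mpr h2N))
      rw [hcop.lcm_eq_mul]
      haveI : NeZero (N * 2) := ⟨Nat.mul_ne_zero hN two_ne_zero⟩
      apply coreStatement_of_dvd N (N * 2) (Dvd.intro _ rfl) A m
      rw [Fermat.Agent.S28.H988.relfinrank_bar_mul_prime N 2 hN Nat.prime_two, if_neg h2N]
      exact (Nat.Prime.coprime_iff_not_dvd Nat.prime_three).mpr hm
  · subst h2
    by_cases h3N : 3 ∣ N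
    · rw [Nat.lcm_eq_left h3N]
      exact id
    · have hcop : Nat.Coprime N 3 :=
        (Nat.coprime_comm.mp ((Nat.Prime.coprime_iff_not_dvd Nat.prime_three).mpr h3N))
      rw [hcop.lcm_eq_mul]
      haveI : NeZero (N * 3) := ⟨Nat.mul_ne_zero hN three_ne_zero⟩
      apply coreStatement_of_dvd N (N * 3) (Dvd.intro _ rfl) A m
      rw [Fermat.Agent.S28.H988.relfinrank_bar_mul_prime N 3 hN Nat.prime_three, if_neg h3N]
      have h2m : Nat.Coprime 2 m := (Nat.Prime.coprime_iff_not_dvd Nat.prime_two).mpr hm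
      exact Nat.Coprime.pow_left 2 h2m
  · exact id

end Fermat.Agent.S18.H457
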