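import Mathlib

/-!
# S18 / node D2 — the norm trick (helper457), Mathlib-only

`F'/F` a field extension of degree `d` prime to `m`.  If `r ∈ F` becomes `c · y ^ m` in `F'`
(`c ∈ F`, `y ∈ F'`), then `r = (c ^ d) ^ a · y' ^ m` for some `a : ℤ`, `y' ∈ F`.
(Take norms: `r ^ d = c ^ d · N(y) ^ m`, and Bézout `a d + b m = 1`.)
No Kummer theory, no roots of unity.
-/

set_option autoImplicit false

namespace Fermat.Agent.S18.H457

/-- Bézout step: `r ^ d = C * z ^ m`, `gcd(d, m) = 1` ⟹ `r = C ^ a * y' ^ m`. -/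
theorem exists_zpow_of_pow_eq {F : Type*} [Field F] (d m : ℕ) (hcop : Nat.Coprime d m)
    (r C z : F) (hr : r ≠ 0) (h : r ^ d = C * z ^ m) :
    ∃ (a : ℤ) (y' : F), r = C ^ a * y' ^ m := by
  obtain ⟨a, b, hab⟩ : ∃ a b : ℤ, a * (d : ℤ) + b * (m : ℤ) = 1 := by
    have := (Nat.isCoprime_iff_coprime (m := d) (n := m)).mpr hcop
    obtain ⟨a, b, hab⟩ := this
    exact ⟨a, b, hab⟩
  refine ⟨a, z ^ a * r ^ b, ?_⟩
  have h1 : r ^ (a * (d : ℤ)) = C ^ a * (z ^ a) ^ m := by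
    rw [mul_comm a, zpow_mul, zpow_natCast, h, mul_zpow, ← zpow_natCast z m, ← zpow_mul,
      mul_comm (m : ℤ) a, zpow_mul, zpow_natCast]
  have h2 : r ^ (b * (m : ℤ)) = (r ^ b) ^ m := by
    rw [zpow_mul, zpow_natCast]
  calc r = r ^ (1 : ℤ) := (zpow_one r).symm
    _ = r ^ (a * (d : ℤ) + b * (m : ℤ)) := by rw [hab]
    _ = r ^ (a * (d : ℤ)) * r ^ (b * (m : ℤ)) := zpow_add₀ hr _ _
    _ = C ^ a * (z ^ a) ^ m * (r ^ b) ^ m := by rw [h1, h2]
    _ = C ^ a * (z ^ a * r ^ b) ^ m := by rw [mul_pow, mul_assoc]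

/-- **Norm trick.**  If `r ∈ F` is `c · y ^ m` in an extension `F'` whose degree is prime to `m`,
then `r = (c ^ [F':F]) ^ a · y' ^ m` with `y' ∈ F`. -/
theorem exists_zpow_of_algebraMap_eq {F F' : Type*} [Field F] [Field F'] [Algebra F F'] (m : ℕ)
    (hcop : Nat.Coprime (Module.finrank F F') m)
    (r c : F) (hr : r ≠ 0) (y : F')
    (h : algebraMap F F' r = algebraMap F F' c * y ^ m) :
    ∃ (a : ℤ) (y' : F), r = (c ^ Module.finrank F F') ^ a * y' ^ m := by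
  have hnorm : r ^ Module.finrank F F' =
      c ^ Module.finrank F F' * (Algebra.norm F y) ^ m := by
    have := congrArg (Algebra.norm F) h
    rwa [Algebra.norm_algebraMap, map_mul, Algebra.norm_algebraMap, map_pow] at this
  exact exists_zpow_of_pow_eq _ m hcop r _ _ hr hnorm

end Fermat.Agent.S18.H457
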