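import Fermat.Agent.S18.Spec
import Fermat.Agent.S18.H457.NormTrick
import Fermat.Agent.S28.H988.Degree
import Fermat.Prelude.Def_AlgebraicCurve_DivisorPushPull

/-!
# S18 / node D2 — transfer `CORE(M) → CORE(N)` for `N ∣ M` (helper457)

`coreStatement_of_dvd` : if `[F_M : F_N]` is prime to `m` then `CoreStatement M A m → CoreStatement N A m`.
`node_d2`              : the exact statement of `Integ.node_d2` (with `levelM` unfolded).

Proof: integral series at level `N` are integral at level `M`; places of `F_M` restrict to places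
of `F_N` (Prelude `Place.restrict`, `ord_restrict`); the norm trick brings `y ∈ F_M` down to `F_N`.
-/

set_option autoImplicit false
set_option linter.style.haveILetI false

noncomputable section

namespace Fermat.Agent.S18.H457

open ModularCurve AlgebraicCurve HahnSeries IntermediateField

section Abstract

variable {K E : Type*} [Field K] [Field E] [Algebra K E] {A B : IntermediateField K E}

/-- The algebra structure `A → B` for intermediate fields `A ≤ B`. -/
abbrev algOfLe (h : A ≤ B) : Algebra A B := (IntermediateField.inclusion h).toRingHom.toAlgebra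

theorem algOfLe_algebraMap_coe (h : A ≤ B) (a : A) :
    letI := algOfLe h
    ((algebraMap A B a : B) : E) = (a : E) := rfl

theorem isScalarTower_algOfLe (h : A ≤ B) :
    letI := algOfLe h
    IsScalarTower K A B :=
  letI := algOfLe h
  IsScalarTower.of_algebraMap_eq fun _ => rfl

/-- `B` with the inclusion algebra structure is linearly equivalent to `extendScalars`. -/
def extendScalarsEquiv (h : A ≤ B) :
    letI := algOfLe h
    (extendScalars h) ≃ₗ[A] B :=
  letI := algOfLe h
  { toFun := fun x => ⟨x.1, x.2⟩
    invFun := fun x => ⟨x.1, x.2⟩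
    left_inv := fun _ => rfl
    right_inv := fun _ => rfl
    map_add' := fun _ _ => rfl
    map_smul' := fun _ _ => rfl }

theorem finrank_algOfLe (h : A ≤ B) :
    letI := algOfLe h
    Module.finrank A B = A.relfinrank B := by
  letI := algOfLe h
  rw [relfinrank_eq_finrank_of_le h]
  exact (extendScalarsEquiv h).finrank_eq.symm

end Abstract

/-- `F_N ≤ F_M` for `N ∣ M`. -/
theorem bar_le {N M : ℕ} [NeZero N] [NeZero M] (h : N ∣ M) :
    modularFunctionFieldBar N ≤ modularFunctionFieldBar M := by
  rw [Fermat.Agent.S28.H988.modularFunctionFieldBar_eq_fullC,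
    Fermat.Agent.S28.H988.modularFunctionFieldBar_eq_fullC]
  exact full_degeneracyC_le _ h

theorem isInt_of_dvd {N M : ℕ} [NeZero N] [NeZero M] (h : N ∣ M) {A : ValuationSubring Qb}
    {U : LaurentSeries A} (hU : IsInt A N U) : IsInt A M U :=
  ⟨bar_le h hU.1, full_degeneracyC_le _ h hU.2.1, hU.2.2⟩

theorem toF_ne_zero {N : ℕ} {A : ValuationSubring Qb} {U : LaurentSeries A} (hU : IsInt A N U) :
    toF hU ≠ 0 := by
  intro h0
  apply hU.2.2
  have h1 : coeffMap A.subtype U = 0 := congrArg Subtype.val h0
  have h2 : U = 0 := by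
    ext n
    have := congrArg (fun f => f.coeff n) h1
    simp only [coeffMap_coeff, HahnSeries.coeff_zero] at this
    have h3 : ((U.coeff n : A) : Qb) = 0 := this
    exact h3
  rw [h2]
  ext n
  simp

/-- **Transfer.**  `CORE(M) → CORE(N)` when `N ∣ M` and `[F_M : F_N]` is prime to `m`. -/
theorem coreStatement_of_dvd (N M : ℕ) [NeZero N] [NeZero M] (hNM : N ∣ M)
    (A : ValuationSubring Qb) (m : ℕ)
    (hcop : Nat.Coprime
      ((modularFunctionFieldBar N).relfinrank (modularFunctionFieldBar M)) m) :
    CoreStatement M A m → CoreStatement N A m := by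
  intro hM U₁ U₂ h₁ h₂ hred hdiv
  have hle := bar_le hNM
  letI alg := algOfLe hle
  haveI := isScalarTower_algOfLe hle
  have hfr : Module.finrank (modularFunctionFieldBar N) (modularFunctionFieldBar M) =
      (modularFunctionFieldBar N).relfinrank (modularFunctionFieldBar M) := finrank_algOfLe hle
  have hcop' : Nat.Coprime
      (Module.finrank (modularFunctionFieldBar N) (modularFunctionFieldBar M)) m := by
    rw [hfr]; exact hcop
  have ht₁ := toF_ne_zero h₁
  have ht₂ := toF_ne_zero h₂
  -- the quotient `r = t₁ / t₂`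
  set r : modularFunctionFieldBar N := toF h₁ / toF h₂ with hr_def
  have hr : r ≠ 0 := div_ne_zero ht₁ ht₂
  -- it suffices to write `r = const * y ^ m`
  suffices hmain : ∃ (c : Qb) (y : modularFunctionFieldBar N), c ≠ 0 ∧
      r = algebraMap Qb (modularFunctionFieldBar N) c * y ^ m by
    obtain ⟨c, y, hc, hry⟩ := hmain
    by_cases hy : y = 0
    · subst hy
      rcases Nat.eq_zero_or_pos m with hm0 | hmpos
      · subst hm0
        refine ⟨c, 1, hc, one_ne_zero, ?_⟩
        rw [pow_zero, mul_one] at hry
        rw [pow_zero, mul_one, ← hry, hr_def, div_mul_cancel₀ _ ht₂]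
      · exfalso
        rw [zero_pow (by omega), mul_zero] at hry
        exact hr hry
    · refine ⟨c, y, hc, hy, ?_⟩
      rw [← hry, hr_def, div_mul_cancel₀ _ ht₂]
  by_cases hd : Module.finrank (modularFunctionFieldBar N) (modularFunctionFieldBar M) = 0
  · -- degenerate case: then `m = 1`
    rw [hd, Nat.coprime_zero_left] at hcop'
    subst hcop'
    exact ⟨1, r, one_ne_zero, by rw [map_one, one_mul, pow_one]⟩
  have : Module.Finite (modularFunctionFieldBar N) (modularFunctionFieldBar M) :=
    Module.finite_of_finrank_pos (Nat.pos_of_ne_zero hd)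
  have : Algebra.IsIntegral (modularFunctionFieldBar N) (modularFunctionFieldBar M) :=
    Algebra.IsIntegral.of_finite _ _
  have h₁' := isInt_of_dvd hNM h₁
  have h₂' := isInt_of_dvd hNM h₂
  have e₁ : toF h₁' = algebraMap (modularFunctionFieldBar N) (modularFunctionFieldBar M) (toF h₁) :=
    rfl
  have e₂ : toF h₂' = algebraMap (modularFunctionFieldBar N) (modularFunctionFieldBar M) (toF h₂) :=
    rfl
  have hdiv' : ∀ w : Place Qb (modularFunctionFieldBar M),
      (m : ℤ) ∣ w.ord (toF h₁') - w.ord (toF h₂') := by
    intro w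
    rw [e₁, e₂, w.ord_restrict, w.ord_restrict, ← mul_sub]
    exact Dvd.dvd.mul_left (hdiv (w.restrict (modularFunctionFieldBar N))) _
  obtain ⟨c, y, hc, hy, heq⟩ := hM U₁ U₂ h₁' h₂' hred hdiv'
  -- descend by the norm trick
  have hc' : algebraMap Qb (modularFunctionFieldBar M) c =
      algebraMap (modularFunctionFieldBar N) (modularFunctionFieldBar M)
        (algebraMap Qb (modularFunctionFieldBar N) c) :=
    IsScalarTower.algebraMap_apply _ _ _ _
  have hr' : algebraMap (modularFunctionFieldBar N) (modularFunctionFieldBar M) r =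
      algebraMap (modularFunctionFieldBar N) (modularFunctionFieldBar M)
        (algebraMap Qb (modularFunctionFieldBar N) c) * y ^ m := by
    rw [hr_def, map_div₀, ← e₁, ← e₂, heq, ← hc']
    have ht₂' : toF h₂' ≠ 0 := toF_ne_zero h₂'
    field_simp
  obtain ⟨a, y', hy'⟩ := exists_zpow_of_algebraMap_eq m hcop' r _ hr y hr'
  refine ⟨(c ^ Module.finrank (modularFunctionFieldBar N) (modularFunctionFieldBar M)) ^ a, y',
    zpow_ne_zero _ (pow_ne_zero _ hc), ?_⟩
  rw [hy', map_zpow₀, map_pow]

end Fermat.Agent.S18.H457
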